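import Mathlib

/-!
# S51x: generic bound for the number of `n`-torsion points whose `x`-coordinates are
roots of a fixed nonzero polynomial.
-/

set_option autoImplicit false

namespace Fermat.Agent.S51x.H52

open WeierstrassCurve WeierstrassCurve.Affine Polynomial

variable {F : Type*} [Field F] [DecidableEq F] (E : WeierstrassCurve.Affine F)

/-- The Weierstrass equation as a quadratic polynomial in `y`, for fixed `x`. -/
noncomputable def quadY (x : F) : F[X] :=
  X ^ 2 + C (E.a₁ * x + E.a₃) * X - C (x ^ 3 + E.a₂ * x ^ 2 + E.a₄ * x + E.a₆)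

omit [DecidableEq F] in
lemma quadY_eval (x y : F) : (quadY E x).eval y = 0 ↔ E.Equation x y := by
  rw [Affine.equation_iff', quadY]
  simp only [eval_sub, eval_add, eval_pow, eval_X, eval_mul, eval_C]
  constructor <;> intro h <;> linear_combination h

omit [DecidableEq F] in
lemma quadY_natDegree (x : F) : (quadY E x).natDegree = 2 := by
  rw [quadY]
  compute_degree!

lemma quadY_ne_zero (x : F) : quadY E x ≠ 0 := by
  intro h
  have := quadY_natDegree E x
  rw [h, natDegree_zero] at this
  exact absurd this (by norm_num)

lemma quadY_card_roots (x : F) : (quadY E x).roots.toFinset.card ≤ 2 := by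
  calc (quadY E x).roots.toFinset.card ≤ Multiset.card (quadY E x).roots :=
        Multiset.toFinset_card_le _
    _ ≤ (quadY E x).natDegree := card_roots' _
    _ = 2 := quadY_natDegree E x

lemma exists_equation [IsAlgClosed F] (x : F) : ∃ y : F, E.Equation x y := by
  obtain ⟨y, hy⟩ := IsAlgClosed.exists_root (quadY E x) (by
    rw [degree_eq_natDegree (quadY_ne_zero E x), quadY_natDegree]
    norm_num)
  exact ⟨y, (quadY_eval E x y).mp hy⟩

/-- The finite set of affine points of the curve whose `x`-coordinate is a root of `p`. -/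
noncomputable def pointsOver (p : F[X]) : Finset (F × F) :=
  p.roots.toFinset.biUnion fun x => (quadY E x).roots.toFinset.image fun y => (x, y)

lemma mem_pointsOver {p : F[X]} (hp : p ≠ 0) {x y : F} :
    (x, y) ∈ pointsOver E p ↔ p.eval x = 0 ∧ E.Equation x y := by
  simp only [pointsOver, Finset.mem_biUnion, Multiset.mem_toFinset, Finset.mem_image,
    Prod.mk.injEq]
  constructor
  · rintro ⟨x', hx', y', hy', rfl, rfl⟩
    exact ⟨(mem_roots hp).mp hx', (quadY_eval E _ _).mp ((mem_roots (quadY_ne_zero E _)).mp hy')⟩
  · rintro ⟨hx, hy⟩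
    exact ⟨x, (mem_roots hp).mpr hx, y,
      (mem_roots (quadY_ne_zero E x)).mpr ((quadY_eval E x y).mpr hy), rfl, rfl⟩

lemma card_pointsOver_le (p : F[X]) : (pointsOver E p).card ≤ 2 * p.natDegree := by
  calc (pointsOver E p).card
      ≤ ∑ x ∈ p.roots.toFinset, ((quadY E x).roots.toFinset.image fun y => (x, y)).card :=
        Finset.card_biUnion_le
    _ ≤ ∑ _x ∈ p.roots.toFinset, 2 := by
        refine Finset.sum_le_sum fun x _ => ?_
        exact (Finset.card_image_le).trans (quadY_card_roots E x)
    _ = p.roots.toFinset.card * 2 := by rw [Finset.sum_const, smul_eq_mul]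
    _ ≤ p.natDegree * 2 := by
        refine Nat.mul_le_mul_right 2 ?_
        exact (Multiset.toFinset_card_le _).trans (card_roots' p)
    _ = 2 * p.natDegree := mul_comm _ _

variable {E}

/-- Coordinates of a point, `none` for the point at infinity. -/
def pointCoords : E.Point → Option (F × F)
  | .zero => none
  | .some x y _ => some (x, y)

omit [DecidableEq F] in
lemma pointCoords_injective : Function.Injective (pointCoords (E := E)) := by
  rintro (_ | ⟨x₁, y₁, h₁⟩) (_ | ⟨x₂, y₂, h₂⟩) h <;>
    simp only [pointCoords, Option.some.injEq, Prod.mk.injEq, reduceCtorEq] at h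
  · rfl
  · obtain ⟨rfl, rfl⟩ := h; rfl

/-- If the `x`-coordinates of all nonzero points of a set `T` are roots of a nonzero polynomial
`p`, then `T` is finite with at most `2 deg p + 1` elements. -/
theorem finite_and_card_le_of_roots (T : Set E.Point) (p : F[X]) (hp : p ≠ 0)
    (h : ∀ (x y : F) (hxy : E.Nonsingular x y), Point.some x y hxy ∈ T → p.eval x = 0) :
    T.Finite ∧ T.ncard ≤ 2 * p.natDegree + 1 := by
  classical
  set S : Finset (Option (F × F)) := insert none ((pointsOver E p).image some) with hS
  have hsub : pointCoords '' T ⊆ (S : Set (Option (F × F))) := by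
    rintro _ ⟨P, hP, rfl⟩
    rcases P with _ | ⟨x, y, hxy⟩
    · simp [hS, pointCoords]
    · have : (x, y) ∈ pointsOver E p := (mem_pointsOver E hp).mpr ⟨h x y hxy hP, hxy.1⟩
      simp [hS, pointCoords, this]
  have hfin : (pointCoords '' T).Finite := S.finite_toSet.subset hsub
  have hTfin : T.Finite := hfin.of_finite_image pointCoords_injective.injOn
  refine ⟨hTfin, ?_⟩
  calc T.ncard = (pointCoords '' T).ncard := (Set.ncard_image_of_injective T pointCoords_injective).symm
    _ ≤ (S : Set (Option (F × F))).ncard := Set.ncard_le_ncard hsub S.finite_toSet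
    _ = S.card := Set.ncard_coe_finset S
    _ ≤ ((pointsOver E p).image some).card + 1 := Finset.card_insert_le _ _
    _ ≤ (pointsOver E p).card + 1 := Nat.add_le_add_right Finset.card_image_le 1
    _ ≤ 2 * p.natDegree + 1 := Nat.add_le_add_right (card_pointsOver_le E p) 1

end Fermat.Agent.S51x.H52
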