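import Mathlib

/-!
# S51x: x-coordinate duplication formula and 3-torsion on a Weierstrass curve over a field
-/

set_option autoImplicit false

namespace Fermat.Agent.S51x.H52

open WeierstrassCurve

variable {F : Type*} [Field F] (E : WeierstrassCurve.Affine F)

/-- `Ψ₂Sq` as a function: `4x³ + b₂x² + 2b₄x + b₆`. -/
def gfun (x : F) : F := 4 * x ^ 3 + E.b₂ * x ^ 2 + 2 * E.b₄ * x + E.b₆

/-- `Ψ₃` as a function. -/
def psi3 (x : F) : F := 3 * x ^ 4 + E.b₂ * x ^ 3 + 3 * E.b₄ * x ^ 2 + 3 * E.b₆ * x + E.b₈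

/-- Numerator of the duplication formula. -/
def dupNum (x : F) : F := x ^ 4 - E.b₄ * x ^ 2 - 2 * E.b₆ * x - E.b₈

/-- derivative of `gfun`. -/
def gfun' (x : F) : F := 12 * x ^ 2 + 2 * E.b₂ * x + 2 * E.b₄

lemma dupNum_eq (x : F) : dupNum E x = x * gfun E x - psi3 E x := by
  simp only [dupNum, gfun, psi3]
  ring

lemma sixteen_psi3 (x : F) :
    16 * psi3 E x = 2 * gfun E x * (24 * x + 2 * E.b₂) - gfun' E x ^ 2 := by
  simp only [psi3, gfun, gfun', WeierstrassCurve.b₂, WeierstrassCurve.b₄, WeierstrassCurve.b₆,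
    WeierstrassCurve.b₈]
  ring

variable {E}

lemma gfun_eq_sq {x y : F} (h : E.Equation x y) : gfun E x = (y - E.negY x y) ^ 2 := by
  rw [Affine.equation_iff] at h
  simp only [gfun, Affine.negY, WeierstrassCurve.b₂, WeierstrassCurve.b₄, WeierstrassCurve.b₆]
  linear_combination (-4 : F) * h

lemma gfun_ne_zero_iff {x y : F} (h : E.Equation x y) : gfun E x ≠ 0 ↔ y ≠ E.negY x y := by
  rw [gfun_eq_sq h, ne_eq, pow_eq_zero_iff two_ne_zero, sub_eq_zero]

/-- At a point of the curve with `g(x) = 0` (a 2-torsion point), `g'(x) = -4 W_X`. -/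
lemma gfun'_eq_of_Y_eq {x y : F} (hy : y = E.negY x y) :
    gfun' E x = -4 * (E.a₁ * y - (3 * x ^ 2 + 2 * E.a₂ * x + E.a₄)) := by
  simp only [Affine.negY] at hy
  simp only [gfun', WeierstrassCurve.b₂, WeierstrassCurve.b₄]
  linear_combination (2 * E.a₁) * hy

/-- On a nonsingular curve point, `g` and `Ψ₃` have no common zero. -/
lemma psi3_ne_zero_of_gfun_eq_zero [CharZero F] {x y : F} (h : E.Nonsingular x y)
    (hg : gfun E x = 0) :
    psi3 E x ≠ 0 := by
  have hy : y = E.negY x y := by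
    by_contra hne
    exact (gfun_ne_zero_iff h.1).mpr hne hg
  have h1 := (Affine.nonsingular_iff' x y).mp h
  have hX : E.a₁ * y - (3 * x ^ 2 + 2 * E.a₂ * x + E.a₄) ≠ 0 := by
    rcases h1.2 with h2 | h2
    · exact h2
    · exfalso
      apply h2
      simp only [Affine.negY] at hy
      linear_combination hy
  have hg' : gfun' E x ≠ 0 := by
    rw [gfun'_eq_of_Y_eq hy]
    exact mul_ne_zero (by norm_num) hX
  intro h3
  have := sixteen_psi3 E x
  rw [h3, hg] at this
  have h4 : gfun' E x ^ 2 = 0 := by linear_combination this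
  exact hg' (pow_eq_zero_iff two_ne_zero |>.mp h4)

variable [DecidableEq F]

/-- x-coordinate duplication formula. -/
lemma addX_self_mul_gfun {x y : F} (h : E.Equation x y) (hy : y ≠ E.negY x y) :
    E.addX x x (E.slope x x y y) * gfun E x = dupNum E x := by
  have hne : y - E.negY x y ≠ 0 := sub_ne_zero.mpr hy
  rw [Affine.slope_of_Y_ne rfl hy, gfun_eq_sq h, Affine.addX]
  have h' := (Affine.equation_iff x y).mp h
  field_simp
  simp only [dupNum, Affine.negY, WeierstrassCurve.b₄, WeierstrassCurve.b₆,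
    WeierstrassCurve.b₈]
  linear_combination (-(8 * x + E.a₁ ^ 2 + 4 * E.a₂)) * h'

lemma addX_self_sub {x y : F} (h : E.Equation x y) (hy : y ≠ E.negY x y) :
    (E.addX x x (E.slope x x y y) - x) * gfun E x = - psi3 E x := by
  rw [sub_mul, addX_self_mul_gfun h hy, dupNum_eq]
  ring

end Fermat.Agent.S51x.H52
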