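import Mathlib
import Fermat.Agent.S51x.H52.Dup
import Fermat.Agent.S51x.H52.Count

/-!
# S51x: 3-torsion points and roots of `Ψ₃`
-/

set_option autoImplicit false

namespace Fermat.Agent.S51x.H52

open WeierstrassCurve WeierstrassCurve.Affine

variable {F : Type*} [Field F] [DecidableEq F] [CharZero F] {E : WeierstrassCurve.Affine F}

omit [CharZero F] in
lemma three_zsmul_eq (P : E.Point) : (3 : ℤ) • P = P + P + P := by
  rw [show (3 : ℤ) = 1 + 1 + 1 by norm_num, add_zsmul, add_zsmul, one_zsmul]

/-- A point `(x, y)` is killed by `3` iff `Ψ₃(x) = 0`. -/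
theorem three_zsmul_eq_zero_iff {x y : F} (h : E.Nonsingular x y) :
    (3 : ℤ) • (Point.some x y h) = 0 ↔ psi3 E x = 0 := by
  rw [three_zsmul_eq]
  constructor
  · intro h3
    have h2 : Point.some x y h + Point.some x y h = - Point.some x y h :=
      eq_neg_of_add_eq_zero_left h3
    by_cases hy : y = E.negY x y
    · rw [Point.add_self_of_Y_eq hy] at h2
      exact absurd (neg_eq_zero.mp h2.symm) (Point.some_ne_zero h)
    · rw [Point.add_self_of_Y_ne hy, Point.neg_some] at h2
      have hx : E.addX x x (E.slope x x y y) = x := (Point.some.inj h2).1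
      have := addX_self_sub h.1 hy
      rw [hx, sub_self, zero_mul] at this
      exact neg_eq_zero.mp this.symm
  · intro h3
    have hg : gfun E x ≠ 0 := fun hg => psi3_ne_zero_of_gfun_eq_zero h hg h3
    have hy : y ≠ E.negY x y := (gfun_ne_zero_iff h.1).mp hg
    have hx : E.addX x x (E.slope x x y y) = x := by
      have := addX_self_sub h.1 hy
      rw [h3, neg_zero] at this
      rcases mul_eq_zero.mp this with h4 | h4
      · exact sub_eq_zero.mp h4
      · exact absurd h4 hg
    have h2 := Point.add_self_of_Y_ne (h₁ := h) hy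
    rcases (Point.X_eq_iff (h₁ := nonsingular_add h h fun hxy => hy hxy.right) (h₂ := h)).mp hx
      with h5 | h5
    · exfalso
      rw [← h2] at h5
      have : Point.some x y h = 0 := by
        have h6 : Point.some x y h + Point.some x y h = Point.some x y h + 0 := by
          rw [add_zero]; exact h5
        exact add_left_cancel h6
      exact Point.some_ne_zero h this
    · rw [← h2] at h5
      rw [h5]
      exact neg_add_cancel _

omit [DecidableEq F] in
lemma psi3_eq_eval (x : F) : psi3 E x = (WeierstrassCurve.Ψ₃ E).eval x := by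
  simp [psi3, WeierstrassCurve.Ψ₃]

omit [DecidableEq F] in
lemma Ψ₃_ne_zero' : WeierstrassCurve.Ψ₃ E ≠ 0 :=
  WeierstrassCurve.Ψ₃_ne_zero E (by norm_num)

/-- Over an algebraically closed field of characteristic zero, an elliptic curve has a nonzero
point killed by `3`. -/
theorem exists_three_torsion [IsAlgClosed F] (hΔ : E.Δ ≠ 0) :
    ∃ (x y : F) (h : E.Nonsingular x y), (3 : ℤ) • Point.some x y h = 0 := by
  have hdeg : (WeierstrassCurve.Ψ₃ E).degree ≠ 0 := by
    rw [Polynomial.degree_eq_natDegree Ψ₃_ne_zero', WeierstrassCurve.natDegree_Ψ₃ E (by norm_num)]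
    norm_num
  obtain ⟨x, hx⟩ := IsAlgClosed.exists_root _ hdeg
  obtain ⟨y, hy⟩ := exists_equation E x
  have hns : E.Nonsingular x y := (Affine.equation_iff_nonsingular_of_Δ_ne_zero hΔ).mp hy
  refine ⟨x, y, hns, (three_zsmul_eq_zero_iff hns).mpr ?_⟩
  rw [psi3_eq_eval]
  exact hx

/-- The `3`-torsion of a Weierstrass curve over a field of characteristic zero is finite with
at most `9` elements. -/
theorem three_torsion_finite_card_le :
    {P : E.Point | (3 : ℤ) • P = 0}.Finite ∧ {P : E.Point | (3 : ℤ) • P = 0}.ncard ≤ 9 := by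
  have h := finite_and_card_le_of_roots {P : E.Point | (3 : ℤ) • P = 0} (WeierstrassCurve.Ψ₃ E)
    Ψ₃_ne_zero' (by
      intro x y hxy hP
      rw [← psi3_eq_eval]
      exact (three_zsmul_eq_zero_iff hxy).mp hP)
  rw [WeierstrassCurve.natDegree_Ψ₃ E (by norm_num)] at h
  exact h

end Fermat.Agent.S51x.H52
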