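import Mathlib
import Fermat.Prelude.Def_FLTPrelim_GaloisRep
import Fermat.Agent.S51x.H52.Tors3

/-!
# S51x: the generic Galois layer

For the Prelude action of `Gal(Q̄/ℚ)` on `E[ℓ](Q̄)`: if `E[ℓ]` has at most `ℓ²` elements, a
Galois-stable `ZMod ℓ`-submodule `N ≠ ⊥, ⊤` is a line spanned by some `P ≠ 0`, and every `σ`
acts on `P` by a nonzero scalar.  Elements of `Q̄` fixed by all `σ` are rational.
-/

set_option autoImplicit false

namespace Fermat.Agent.S51x.H52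

open WeierstrassCurve WeierstrassCurve.Affine WeierstrassCurve.Affine.Point

local notation "K̄" => AlgebraicClosure ℚ

theorem isAlgClosure_Qbar' : IsAlgClosure ℚ K̄ := by
  have h : (AlgebraicClosure.instAlgebra ℚ : Algebra ℚ K̄) = DivisionRing.toRatAlgebra :=
    Subsingleton.elim _ _
  rw [← h]
  infer_instance

theorem isGalois_Qbar' : IsGalois ℚ K̄ :=
  haveI := isAlgClosure_Qbar'
  IsAlgClosure.isGalois ℚ _

/-- An element of `Q̄` fixed by the whole Galois group is rational. -/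
theorem exists_rat_of_forall_fixed (x : K̄) (h : ∀ σ : K̄ ≃ₐ[ℚ] K̄, σ x = x) :
    ∃ q : ℚ, algebraMap ℚ K̄ q = x := by
  have := isGalois_Qbar'
  have h1 : x ∈ (⊥ : IntermediateField ℚ K̄) := by
    rw [InfiniteGalois.mem_bot_iff_fixed]
    exact h
  exact IntermediateField.mem_bot.mp h1

section xOf

variable {F : Type*} [Field F] {E : WeierstrassCurve.Affine F}

/-- The `x`-coordinate of a point (`0` for the point at infinity). -/
def xOf : E.Point → F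
  | .zero => 0
  | .some x _ _ => x

@[simp] lemma xOf_zero : xOf (0 : E.Point) = 0 := rfl

@[simp] lemma xOf_some {x y : F} (h : E.Nonsingular x y) : xOf (Point.some x y h) = x := rfl

lemma xOf_neg (P : E.Point) : xOf (-P) = xOf P := by
  rcases P with _ | ⟨x, y, h⟩
  · rfl
  · rw [Point.neg_some]; rfl

end xOf

variable {E : WeierstrassCurve.Affine ℚ}

lemma xOf_smul (σ : K̄ ≃ₐ[ℚ] K̄) (P : (E⁄K̄).Point) : xOf (σ • P) = σ (xOf P) := by
  rcases P with _ | ⟨x, y, h⟩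
  · show xOf (Point.map σ.toAlgHom (0 : (E⁄K̄).Point)) = σ 0
    rw [Point.map_zero, _root_.map_zero]; rfl
  · rfl

lemma smul_eq_zero_iff' (σ : K̄ ≃ₐ[ℚ] K̄) (P : (E⁄K̄).Point) : σ • P = 0 ↔ P = 0 := by
  rw [algEquiv_smul_def]
  constructor
  · intro h
    exact Point.map_injective σ.toAlgHom (h.trans (Point.map_zero σ.toAlgHom).symm)
  · rintro rfl
    exact Point.map_zero σ.toAlgHom

section Stable

variable {ℓ : ℕ} [hℓ : Fact ℓ.Prime]

/-- A Galois-stable submodule `N ≠ ⊥, ⊤` of `E[ℓ]`, when `E[ℓ]` has fewer than `ℓ³` elements, is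
a line spanned by a nonzero `P` on which every `σ` acts by a nonzero scalar. -/
theorem exists_generator_of_stable'
    (hfin : Finite (Submodule.torsionBy ℤ (E⁄K̄).Point ℓ))
    (hcard : Nat.card (Submodule.torsionBy ℤ (E⁄K̄).Point ℓ) < ℓ ^ 3)
    (N : Submodule (ZMod ℓ) (Submodule.torsionBy ℤ (E⁄K̄).Point ℓ))
    (hN : IsGaloisStable ℚ N) (hbot : N ≠ ⊥) (htop : N ≠ ⊤) :
    ∃ P : Submodule.torsionBy ℤ (E⁄K̄).Point ℓ, P ∈ N ∧ P ≠ 0 ∧
      (∀ Q ∈ N, ∃ c : ZMod ℓ, Q = c • P) ∧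
      ∀ σ : K̄ ≃ₐ[ℚ] K̄, ∃ c : ZMod ℓ, c ≠ 0 ∧ σ • P = c • P := by
  classical
  have hmf : Module.Finite (ZMod ℓ) (Submodule.torsionBy ℤ (E⁄K̄).Point ℓ) :=
    Module.Finite.of_finite
  -- the dimension of `E[ℓ]` is at most two
  have hdim : Module.finrank (ZMod ℓ) (Submodule.torsionBy ℤ (E⁄K̄).Point ℓ) ≤ 2 := by
    have h1 := Module.natCard_eq_pow_finrank (K := ZMod ℓ)
      (V := Submodule.torsionBy ℤ (E⁄K̄).Point ℓ)
    rw [h1, Nat.card_zmod] at hcard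
    exact Nat.lt_succ_iff.mp ((Nat.pow_lt_pow_iff_right hℓ.out.one_lt).mp hcard)
  have hlt : Module.finrank (ZMod ℓ) N <
      Module.finrank (ZMod ℓ) (Submodule.torsionBy ℤ (E⁄K̄).Point ℓ) :=
    Submodule.finrank_lt htop
  obtain ⟨P, hPN, hP0⟩ := Submodule.exists_mem_ne_zero_of_ne_bot hbot
  have hpos : 0 < Module.finrank (ZMod ℓ) N :=
    Module.finrank_pos_iff_exists_ne_zero.mpr ⟨⟨P, hPN⟩, fun h => hP0 (congrArg Subtype.val h)⟩
  have hone : Module.finrank (ZMod ℓ) N = 1 := by omega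
  have hP0' : (⟨P, hPN⟩ : N) ≠ 0 := fun h => hP0 (congrArg Subtype.val h)
  have hspan := (finrank_eq_one_iff_of_nonzero' (⟨P, hPN⟩ : N) hP0').mp hone
  have hgen : ∀ Q ∈ N, ∃ c : ZMod ℓ, Q = c • P := by
    intro Q hQ
    obtain ⟨c, hc⟩ := hspan ⟨Q, hQ⟩
    exact ⟨c, (congrArg Subtype.val hc).symm⟩
  refine ⟨P, hPN, hP0, hgen, fun σ => ?_⟩
  obtain ⟨c, hc⟩ := hgen (σ • P) (hN σ P hPN)
  refine ⟨c, ?_, hc⟩
  rintro rfl
  rw [zero_smul] at hc
  apply hP0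
  have h2 : (σ • P : Submodule.torsionBy ℤ (E⁄K̄).Point ℓ).1 = 0 := by rw [hc]; rfl
  have h3 : σ • (P : (E⁄K̄).Point) = 0 := h2
  exact Subtype.ext ((smul_eq_zero_iff' σ _).mp h3)

/-- Version of `exists_generator_of_stable'` with the bound `≤ ℓ²`. -/
theorem exists_generator_of_stable
    (hfin : Finite (Submodule.torsionBy ℤ (E⁄K̄).Point ℓ))
    (hcard : Nat.card (Submodule.torsionBy ℤ (E⁄K̄).Point ℓ) ≤ ℓ ^ 2)
    (N : Submodule (ZMod ℓ) (Submodule.torsionBy ℤ (E⁄K̄).Point ℓ))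
    (hN : IsGaloisStable ℚ N) (hbot : N ≠ ⊥) (htop : N ≠ ⊤) :
    ∃ P : Submodule.torsionBy ℤ (E⁄K̄).Point ℓ, P ∈ N ∧ P ≠ 0 ∧
      (∀ Q ∈ N, ∃ c : ZMod ℓ, Q = c • P) ∧
      ∀ σ : K̄ ≃ₐ[ℚ] K̄, ∃ c : ZMod ℓ, c ≠ 0 ∧ σ • P = c • P :=
  exists_generator_of_stable' hfin
    (lt_of_le_of_lt hcard (Nat.pow_lt_pow_right hℓ.out.one_lt (by norm_num))) N hN hbot htop

end Stable

end Fermat.Agent.S51x.H52
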