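import Mathlib
import Fermat.Prelude.Def_FLTPrelim_ModularRep
import Fermat.Agent.S51x.H52.Galois

/-!
# S51x (T3c): a reducible mod-3 representation gives a rational root of `Ψ₃`
-/

set_option autoImplicit false

namespace Fermat.Agent.S51x.H52

open WeierstrassCurve WeierstrassCurve.Affine WeierstrassCurve.Affine.Point

local notation "K̄" => AlgebraicClosure ℚ

/-- The discriminant of the base change to `Q̄` is nonzero. -/
lemma Δ_baseChange_ne_zero (W : WeierstrassCurve ℤ) (hΔ : W.Δ ≠ 0) :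
    (((W.map (Int.castRingHom ℚ)) : WeierstrassCurve.Affine ℚ)⁄K̄).Δ ≠ 0 := by
  show ((W.map (Int.castRingHom ℚ)).map (algebraMap ℚ K̄)).Δ ≠ 0
  rw [WeierstrassCurve.map_Δ, WeierstrassCurve.map_Δ]
  intro h
  have h1 := (algebraMap ℚ K̄).injective (h.trans (_root_.map_zero _).symm)
  exact hΔ (Int.cast_injective (h1.trans Int.cast_zero.symm))

lemma zmod_three_cases : ∀ c : ZMod 3, c ≠ 0 → c = 1 ∨ c = 2 := by decide

instance : Fact (Nat.Prime 3) := ⟨Nat.prime_three⟩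

theorem exists_rat_root_Ψ₃_of_not_irreducible (W : WeierstrassCurve ℤ) (hΔ : W.Δ ≠ 0)
    (h : ¬ W.ModRepIsIrreducible 3) :
    ∃ x₀ : ℚ, (W.map (Int.castRingHom ℚ)).Ψ₃.eval x₀ = 0 := by
  classical
  set E : WeierstrassCurve.Affine ℚ := W.map (Int.castRingHom ℚ) with hE
  have hΔK : (E⁄K̄).Δ ≠ 0 := Δ_baseChange_ne_zero W hΔ
  -- membership in the torsion submodule
  have hmem : ∀ P : (E⁄K̄).Point,
      P ∈ Submodule.torsionBy ℤ (E⁄K̄).Point ((3 : ℕ) : ℤ) ↔ (3 : ℤ) • P = 0 := by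
    intro P
    rw [Submodule.mem_torsionBy_iff, Nat.cast_ofNat]
  -- finiteness and cardinality
  obtain ⟨hfinset, hcardset⟩ := three_torsion_finite_card_le (E := (E⁄K̄))
  have hseteq : ((Submodule.torsionBy ℤ (E⁄K̄).Point ((3 : ℕ) : ℤ) : Set (E⁄K̄).Point)) =
      {P : (E⁄K̄).Point | (3 : ℤ) • P = 0} := by
    ext P
    exact hmem P
  have hfin : Finite (Submodule.torsionBy ℤ (E⁄K̄).Point ((3 : ℕ) : ℤ)) := by
    have : (Submodule.torsionBy ℤ (E⁄K̄).Point ((3 : ℕ) : ℤ) : Set (E⁄K̄).Point).Finite := by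
      rw [hseteq]; exact hfinset
    exact this.to_subtype
  have hcard : Nat.card (Submodule.torsionBy ℤ (E⁄K̄).Point ((3 : ℕ) : ℤ)) ≤ 3 ^ 2 := by
    have h1 : Nat.card (Submodule.torsionBy ℤ (E⁄K̄).Point ((3 : ℕ) : ℤ)) =
        (Submodule.torsionBy ℤ (E⁄K̄).Point ((3 : ℕ) : ℤ) : Set (E⁄K̄).Point).ncard := rfl
    rw [h1, hseteq]
    exact hcardset
  -- nontriviality
  have hnontriv : Nontrivial (Submodule.torsionBy ℤ (E⁄K̄).Point ((3 : ℕ) : ℤ)) := by
    obtain ⟨x, y, hxy, h3⟩ := exists_three_torsion (E := (E⁄K̄)) hΔK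
    refine ⟨⟨⟨Point.some x y hxy, (hmem _).mpr h3⟩, 0, ?_⟩⟩
    intro h0
    exact Point.some_ne_zero hxy (congrArg Subtype.val h0)
  -- unfold the reducibility hypothesis
  have h' : ¬ (Nontrivial (Submodule.torsionBy ℤ (E⁄K̄).Point ((3 : ℕ) : ℤ)) ∧
      ∀ N : Submodule (ZMod 3) (Submodule.torsionBy ℤ (E⁄K̄).Point ((3 : ℕ) : ℤ)),
        IsGaloisStable ℚ N → N = ⊥ ∨ N = ⊤) := h
  rw [not_and] at h'
  have h'' := h' hnontriv
  push Not at h''
  obtain ⟨N, hN, hbot, htop⟩ := h''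
  obtain ⟨P, -, hP0, -, hσ⟩ := exists_generator_of_stable hfin hcard N hN hbot htop
  -- coordinates of `P`
  obtain ⟨P, hPmem⟩ := P
  have hP0' : P ≠ 0 := fun h0 => hP0 (Subtype.ext h0)
  have h3P : (3 : ℤ) • P = 0 := (hmem P).mp hPmem
  rcases P with _ | ⟨x, y, hxy⟩
  · exact absurd rfl hP0'
  -- `x` is fixed by Galois
  have hfix : ∀ σ : K̄ ≃ₐ[ℚ] K̄, σ x = x := by
    intro σ
    obtain ⟨c, hc0, hc⟩ := hσ σ
    have hval : σ • (Point.some x y hxy : (E⁄K̄).Point) =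
        ((c • (⟨Point.some x y hxy, hPmem⟩ :
          Submodule.torsionBy ℤ (E⁄K̄).Point ((3 : ℕ) : ℤ)) :
          Submodule.torsionBy ℤ (E⁄K̄).Point ((3 : ℕ) : ℤ)) : (E⁄K̄).Point) := by
      rw [← hc]; rfl
    have hx := xOf_smul σ (Point.some x y hxy : (E⁄K̄).Point)
    rw [hval, xOf_some] at hx
    rw [← hx]
    rcases zmod_three_cases c hc0 with rfl | rfl
    · rw [one_smul]; rfl
    · rw [two_smul]
      show xOf ((Point.some x y hxy : (E⁄K̄).Point) + Point.some x y hxy) = x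
      have : (Point.some x y hxy : (E⁄K̄).Point) + Point.some x y hxy = - Point.some x y hxy := by
        rw [three_zsmul_eq] at h3P
        exact eq_neg_of_add_eq_zero_left h3P
      rw [this, xOf_neg, xOf_some]
  obtain ⟨q, hq⟩ := exists_rat_of_forall_fixed x hfix
  refine ⟨q, ?_⟩
  have hpsi : psi3 (E⁄K̄) x = 0 := (three_zsmul_eq_zero_iff hxy).mp h3P
  rw [psi3_eq_eval] at hpsi
  have hmap : WeierstrassCurve.Ψ₃ (E⁄K̄) = (WeierstrassCurve.Ψ₃ E).map (algebraMap ℚ K̄) :=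
    WeierstrassCurve.map_Ψ₃ E (algebraMap ℚ K̄)
  rw [hmap, ← hq, Polynomial.eval_map_algebraMap, Polynomial.aeval_algebraMap_apply] at hpsi
  exact (algebraMap ℚ K̄).injective (hpsi.trans (_root_.map_zero _).symm)

end Fermat.Agent.S51x.H52
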