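import Mathlib
import Fermat.Prelude.Def_FLTPrelim_ModularRep
import Fermat.Agent.S51x.H52.T3c
import Fermat.Agent.S51x.Mod3
import Fermat.Agent.S51x.TopLevel

/-!
# S51x: the 3-part interface `I3` (route B): T3c + Mod3
-/

set_option autoImplicit false

namespace Fermat.Agent.S51x.H52

open WeierstrassCurve

theorem i3_holds : Fermat.Agent.S51x.I3 := by
  intro W hΔ h3
  by_cases hc4 : W.c₄ = 0
  · refine ⟨-3, by norm_num, ?_⟩
    rw [hc4]
    norm_num
  · set E : WeierstrassCurve ℚ := W.map (Int.castRingHom ℚ) with hE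
    have hΔ' : E.Δ ≠ 0 := by
      rw [hE, WeierstrassCurve.map_Δ]
      simpa using hΔ
    have : E.IsElliptic := ⟨isUnit_iff_ne_zero.mpr hΔ'⟩
    have hc4' : E.c₄ = (W.c₄ : ℚ) := by rw [hE, WeierstrassCurve.map_c₄]; rfl
    have hΔq : E.Δ = (W.Δ : ℚ) := by rw [hE, WeierstrassCurve.map_Δ]; rfl
    have hjΔ : E.j * E.Δ = E.c₄ ^ 3 := by
      rw [WeierstrassCurve.j, ← WeierstrassCurve.coe_Δ', mul_comm, ← mul_assoc,
        Units.mul_inv, one_mul]
    have hj0 : E.j ≠ 0 := by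
      intro h0
      rw [h0, zero_mul] at hjΔ
      have : (W.c₄ : ℚ) = 0 := by
        rw [← hc4']
        exact (pow_eq_zero_iff three_ne_zero).mp hjΔ.symm
      exact hc4 (by exact_mod_cast this)
    obtain ⟨q, hq⟩ := exists_rat_root_Ψ₃_of_not_irreducible W hΔ h3
    obtain ⟨τ, hτ0, hτ⟩ := Fermat.Agent.S51x.tau_of_Ψ₃_root E hj0 q hq
    refine ⟨τ, hτ0, ?_⟩
    rw [← hc4', ← hΔq, ← hjΔ]
    linear_combination E.Δ * hτ

end Fermat.Agent.S51x.H52
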