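import Mathlib
import Fermat.Prelude.Def_FLTPrelim_ModularRep
import Fermat.Agent.S51x.H52.T3c

/-!
# S51x (T5c): a reducible mod-5 representation gives a point of order `5` whose
`x(P) + x(2P)` and `x(P) x(2P)` are rational.
-/

set_option autoImplicit false

namespace Fermat.Agent.S51x.H52

open WeierstrassCurve WeierstrassCurve.Affine WeierstrassCurve.Affine.Point

local notation "K̄" => AlgebraicClosure ℚ

section OrderFive

variable {F : Type*} [Field F] [DecidableEq F] {E : WeierstrassCurve.Affine F}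

lemma five_zsmul_eq (P : E.Point) : (5 : ℤ) • P = P + P + P + P + P := by
  rw [show (5 : ℤ) = 1 + 1 + 1 + 1 + 1 by norm_num, add_zsmul, add_zsmul, add_zsmul, add_zsmul,
    one_zsmul]

/-- Coordinates of `2P` and the duplication relations for a point `P` of order `5`. -/
theorem order_five_data {x1 y1 : F} (h1 : E.Nonsingular x1 y1)
    (h5 : (5 : ℤ) • Point.some x1 y1 h1 = 0) :
    ∃ (x2 y2 : F) (h2 : E.Nonsingular x2 y2),
      Point.some x1 y1 h1 + Point.some x1 y1 h1 = Point.some x2 y2 h2 ∧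
      y1 ≠ E.negY x1 y1 ∧ x2 ≠ x1 ∧
      x2 * gfun E x1 = dupNum E x1 ∧ x1 * gfun E x2 = dupNum E x2 := by
  set P : E.Point := Point.some x1 y1 h1 with hP
  have hP0 : P ≠ 0 := Point.some_ne_zero h1
  rw [five_zsmul_eq] at h5
  -- `P` is not 2-torsion
  have hy1 : y1 ≠ E.negY x1 y1 := by
    intro hy
    have h2 : P + P = 0 := Point.add_self_of_Y_eq hy
    apply hP0
    have : P + P + P + P + P = P := by rw [h2, zero_add, h2, zero_add]
    rw [← this]; exact h5
  have h2P := Point.add_self_of_Y_ne (h₁ := h1) hy1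
  set x2 := E.addX x1 x1 (E.slope x1 x1 y1 y1) with hx2
  set y2 := E.addY x1 x1 y1 (E.slope x1 x1 y1 y1) with hy2def
  have h2 : E.Nonsingular x2 y2 := nonsingular_add h1 h1 fun hxy => hy1 hxy.right
  have h2P' : P + P = Point.some x2 y2 h2 := h2P
  have hdup1 : x2 * gfun E x1 = dupNum E x1 := addX_self_mul_gfun h1.1 hy1
  -- `x2 ≠ x1`
  have hx21 : x2 ≠ x1 := by
    intro hx
    rcases (Point.X_eq_iff (h₁ := h2) (h₂ := h1)).mp hx with h | h
    · -- 2P = P
      apply hP0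
      have : P + P = P + 0 := by rw [add_zero, h2P']; exact h
      exact add_left_cancel this
    · -- 2P = -P
      apply hP0
      have h3 : P + P + P = 0 := by
        rw [h2P', h]; exact neg_add_cancel _
      have h2' : P + P = 0 := by
        have h55 := h5
        rw [show P + P + P + P + P = (P + P + P) + (P + P) by abel, h3, zero_add] at h55
        exact h55
      have : P = (P + P + P) - (P + P) := by abel
      rw [this, h3, h2', sub_zero]
  -- `2P` is not 2-torsion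
  have hy2 : y2 ≠ E.negY x2 y2 := by
    intro hy
    have h4 : Point.some x2 y2 h2 + Point.some x2 y2 h2 = 0 := Point.add_self_of_Y_eq hy
    rw [← h2P'] at h4
    apply hP0
    have : P + P + P + P + P = P := by
      have : P + P + P + P + P = (P + P) + (P + P) + P := by abel
      rw [this, h4, zero_add]
    rw [← this]; exact h5
  have h4P := Point.add_self_of_Y_ne (h₁ := h2) hy2
  have hdup2 := addX_self_mul_gfun h2.1 hy2
  -- 4P = -P
  have h4neg : Point.some x2 y2 h2 + Point.some x2 y2 h2 = -P := by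
    rw [← h2P']
    apply eq_neg_of_add_eq_zero_left
    rw [← h5]; abel
  rw [h4P, hP, Point.neg_some] at h4neg
  have hx4 : E.addX x2 x2 (E.slope x2 x2 y2 y2) = x1 := (Point.some.inj h4neg).1
  rw [hx4] at hdup2
  exact ⟨x2, y2, h2, h2P', hy1, hx21, hdup1, hdup2⟩

end OrderFive

lemma zmod_five_cases : ∀ c : ZMod 5, c ≠ 0 → c = 1 ∨ c = 2 ∨ c = 3 ∨ c = 4 := by decide

instance : Fact (Nat.Prime 5) := ⟨Nat.prime_five⟩

/-- T5c: if `E[5]` is nontrivial, finite with fewer than `125` elements and the mod-5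
representation is reducible, there is a point `P = (x₁, y₁)` of order `5` with `x₂ = x(2P)` such
that `x₁ + x₂` and `x₁ x₂` are rational. -/
theorem exists_order_five_rational_sym (W : WeierstrassCurve ℤ)
    (hnt : Nontrivial (Submodule.torsionBy ℤ
      (((W.map (Int.castRingHom ℚ)) : WeierstrassCurve.Affine ℚ)⁄K̄).Point ((5 : ℕ) : ℤ)))
    (hfin : Finite (Submodule.torsionBy ℤ
      (((W.map (Int.castRingHom ℚ)) : WeierstrassCurve.Affine ℚ)⁄K̄).Point ((5 : ℕ) : ℤ)))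
    (hcard : Nat.card (Submodule.torsionBy ℤ
      (((W.map (Int.castRingHom ℚ)) : WeierstrassCurve.Affine ℚ)⁄K̄).Point ((5 : ℕ) : ℤ)) < 5 ^ 3)
    (h : ¬ W.ModRepIsIrreducible 5) :
    ∃ x1 y1 x2 : K̄,
      (((W.map (Int.castRingHom ℚ)) : WeierstrassCurve.Affine ℚ)⁄K̄).Equation x1 y1 ∧
      2 * y1 + (((W.map (Int.castRingHom ℚ)) : WeierstrassCurve.Affine ℚ)⁄K̄).a₁ * x1 +
        (((W.map (Int.castRingHom ℚ)) : WeierstrassCurve.Affine ℚ)⁄K̄).a₃ ≠ 0 ∧
      x2 ≠ x1 ∧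
      x2 * gfun (((W.map (Int.castRingHom ℚ)) : WeierstrassCurve.Affine ℚ)⁄K̄) x1 =
        dupNum (((W.map (Int.castRingHom ℚ)) : WeierstrassCurve.Affine ℚ)⁄K̄) x1 ∧
      x1 * gfun (((W.map (Int.castRingHom ℚ)) : WeierstrassCurve.Affine ℚ)⁄K̄) x2 =
        dupNum (((W.map (Int.castRingHom ℚ)) : WeierstrassCurve.Affine ℚ)⁄K̄) x2 ∧
      ∃ s p : ℚ, x1 + x2 = algebraMap ℚ K̄ s ∧ x1 * x2 = algebraMap ℚ K̄ p := by
  classical
  set E : WeierstrassCurve.Affine ℚ := W.map (Int.castRingHom ℚ) with hE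
  have hmem : ∀ P : (E⁄K̄).Point,
      P ∈ Submodule.torsionBy ℤ (E⁄K̄).Point ((5 : ℕ) : ℤ) ↔ (5 : ℤ) • P = 0 := by
    intro P
    rw [Submodule.mem_torsionBy_iff, Nat.cast_ofNat]
  have h' : ¬ (Nontrivial (Submodule.torsionBy ℤ (E⁄K̄).Point ((5 : ℕ) : ℤ)) ∧
      ∀ N : Submodule (ZMod 5) (Submodule.torsionBy ℤ (E⁄K̄).Point ((5 : ℕ) : ℤ)),
        IsGaloisStable ℚ N → N = ⊥ ∨ N = ⊤) := h
  rw [not_and] at h'
  have h'' := h' hnt
  push Not at h''
  obtain ⟨N, hN, hbot, htop⟩ := h''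
  obtain ⟨P, -, hP0, -, hσ⟩ := exists_generator_of_stable' hfin hcard N hN hbot htop
  obtain ⟨P, hPmem⟩ := P
  have hP0' : P ≠ 0 := fun h0 => hP0 (Subtype.ext h0)
  have h5P : (5 : ℤ) • P = 0 := (hmem P).mp hPmem
  rcases P with _ | ⟨x1, y1, h1⟩
  · exact absurd rfl hP0'
  obtain ⟨x2, y2, h2, h2P, hy1, hx21, hd1, hd2⟩ := order_five_data h1 h5P
  set Q : (E⁄K̄).Point := Point.some x1 y1 h1 with hQ
  have h5Q : Q + Q + Q + Q + Q = 0 := by rw [← five_zsmul_eq]; exact h5P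
  -- the action of σ on x1, x2
  have hperm : ∀ σ : K̄ ≃ₐ[ℚ] K̄, (σ x1 = x1 ∧ σ x2 = x2) ∨ (σ x1 = x2 ∧ σ x2 = x1) := by
    intro σ
    obtain ⟨c, hc0, hc⟩ := hσ σ
    have hval : σ • Q =
        ((c • (⟨Q, hPmem⟩ : Submodule.torsionBy ℤ (E⁄K̄).Point ((5 : ℕ) : ℤ)) :
          Submodule.torsionBy ℤ (E⁄K̄).Point ((5 : ℕ) : ℤ)) : (E⁄K̄).Point) := by
      rw [← hc]; rfl
    have hx1 : xOf (σ • Q) = σ x1 := xOf_smul σ Q
    have hx2 : xOf (σ • (Q + Q)) = σ x2 := by rw [xOf_smul σ (Q + Q), h2P]; rfl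
    have hadd : σ • (Q + Q) = σ • Q + σ • Q := by
      rw [algEquiv_smul_def, algEquiv_smul_def, map_add]
    rw [hadd] at hx2
    have hxQ : xOf Q = x1 := rfl
    have hxQQ : xOf (Q + Q) = x2 := by rw [h2P]; rfl
    rcases zmod_five_cases c hc0 with rfl | rfl | rfl | rfl
    · left
      have h1' : σ • Q = Q := by rw [hval, one_smul]
      rw [h1'] at hx1 hx2
      exact ⟨by rw [← hx1, hxQ], by rw [← hx2, hxQQ]⟩
    · right
      have h1' : σ • Q = Q + Q := by rw [hval, two_smul]; rfl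
      rw [h1'] at hx1 hx2
      refine ⟨by rw [← hx1, hxQQ], ?_⟩
      have : Q + Q + (Q + Q) = -Q := by
        apply eq_neg_of_add_eq_zero_left
        rw [← h5Q]; abel
      rw [this, xOf_neg, hxQ] at hx2
      exact hx2.symm
    · right
      have h1' : σ • Q = Q + Q + Q := by
        rw [hval, show (3 : ZMod 5) = 1 + 1 + 1 by decide, add_smul, add_smul, one_smul]; rfl
      rw [h1'] at hx1 hx2
      have e1 : Q + Q + Q = -(Q + Q) := by
        apply eq_neg_of_add_eq_zero_left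
        rw [← h5Q]; abel
      have e2 : Q + Q + Q + (Q + Q + Q) = Q := by
        have : Q + Q + Q + (Q + Q + Q) = (Q + Q + Q + Q + Q) + Q := by abel
        rw [this, h5Q, zero_add]
      rw [e1, xOf_neg, hxQQ] at hx1
      rw [e2, hxQ] at hx2
      exact ⟨hx1.symm, hx2.symm⟩
    · left
      have h1' : σ • Q = Q + Q + Q + Q := by
        rw [hval, show (4 : ZMod 5) = 1 + 1 + 1 + 1 by decide, add_smul, add_smul, add_smul,
          one_smul]; rfl
      rw [h1'] at hx1 hx2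
      have e1 : Q + Q + Q + Q = -Q := by
        apply eq_neg_of_add_eq_zero_left
        rw [← h5Q]
      have e2 : Q + Q + Q + Q + (Q + Q + Q + Q) = -(Q + Q) := by
        apply eq_neg_of_add_eq_zero_left
        have : Q + Q + Q + Q + (Q + Q + Q + Q) + (Q + Q) =
            (Q + Q + Q + Q + Q) + (Q + Q + Q + Q + Q) := by abel
        rw [this, h5Q, add_zero]
      rw [e1, xOf_neg, hxQ] at hx1
      rw [e2, xOf_neg, hxQQ] at hx2
      exact ⟨hx1.symm, hx2.symm⟩
  have hs : ∀ σ : K̄ ≃ₐ[ℚ] K̄, σ (x1 + x2) = x1 + x2 := by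
    intro σ
    rcases hperm σ with ⟨ha, hb⟩ | ⟨ha, hb⟩
    · rw [map_add, ha, hb]
    · rw [map_add, ha, hb, add_comm]
  have hp : ∀ σ : K̄ ≃ₐ[ℚ] K̄, σ (x1 * x2) = x1 * x2 := by
    intro σ
    rcases hperm σ with ⟨ha, hb⟩ | ⟨ha, hb⟩
    · rw [map_mul, ha, hb]
    · rw [map_mul, ha, hb, mul_comm]
  obtain ⟨s, hs'⟩ := exists_rat_of_forall_fixed _ hs
  obtain ⟨p, hp'⟩ := exists_rat_of_forall_fixed _ hp
  refine ⟨x1, y1, x2, h1.1, ?_, hx21, hd1, hd2, s, p, hs'.symm, hp'.symm⟩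
  intro h0
  apply hy1
  simp only [Affine.negY]
  linear_combination h0

end Fermat.Agent.S51x.H52
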